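/-
Programme S33, brick **N2-cmpall**, part (B) (helper38): **the EXISTENTIAL form of CMP for the bridge
`j := jAll Fam` on all of `J₀(N)(ℚ̄)`** (helper39's `MAZ/JAll39/Main`).

Target: the hypothesis `hcmp` of helper84's `S33P/Toric84/PowFields.toric_inf_field` (= helper65's
`S33P/Toric65` plug), for `T = JZero N`, `j = jAll Fam`:

  `∀ x, ker x → jAll Fam x ∈ unionSub c0 (fun E => P E ⊓ J1Fam c0 E) hP1 →
     ∃ (E : NLevel p K) (y : J1 c0 O_E), ofMul (bcO c0 E ↑y) = jAll Fam x ∧ Ker E y`.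

Ingredients:
* `Rep K x` (helper39): a finite normal level `L ⊇ K` and a divisor `D` of degree `0`, of class `x`,
  with `L`-rational support; `jAll Fam x = jDiv Fam L' _ D` for EVERY finite normal `L' ⊇ L`;
* the union vocabulary of helper66 (`exists_ge_of_mem_unionSub`: the level may be enlarged);
* helper76's `Cmp76.hxy_of_bcO_eq` (EXT-INJ-FIELD: equality over `ℚ̄_p` descends to `E`);
* part (A) (helper39, `S33P/CmpAll39/JSpecDiv.hJ_dDiv`): JSpec-F for the class `dDiv L D` of `O(D)`,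
  here the HYPOTHESIS `hJdiv`;
* the level-wise CMP (helper67's hub theorem through `Cmp15.cmp_of_dict_model`), here the HYPOTHESIS
  `hlevel`, in the exact shape `hxy → hJ → Ker E y` (`Good P := deg P = 0 ∧ cls P = x`).

Results:
* `bcE_toEh`            : `bcE ∘ toEh = bcL` (the 10 lines of `Local66/Bridge`, restated here so as not to
                          import the `Local66` assembly);
* `exists_level_data`   : the DATA at one level: `E`, `y ∈ P E ⊓ J̃¹(O_E)`, `xL = dDiv E.L D`, with `hya`,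
                          `hxy` and (from `hJdiv`) `hJ`;
* `cmpall`              : the existential `hcmp`.
-/
import Mathlib
import Fermat.Agent.MAZ.JAll39.Main
import Fermat.Agent.T1B.Cmp76.Union
import Fermat.Agent.T1B.Bridge54.IpUnion
import Fermat.Agent.T1B.GalInput65.NLev
import Fermat.Agent.T1B.Hol31.DictExt
import Fermat.Agent.S33P.CmpAll39.JSpecDiv

set_option autoImplicit false
set_option linter.unusedSectionVars false
set_option linter.unusedVariables false
set_option linter.style.haveILetI false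
set_option linter.overlappingInstances false
set_option synthInstance.maxHeartbeats 400000
set_option maxHeartbeats 1000000

open HahnSeries AlgebraicCurve ModularCurve IntermediateField TensorProduct
open Fermat.Agent.TW.B5.Iface Fermat.Agent.RED.Interface4 Fermat.Agent.T1.HubInst98
open Fermat.Agent.T1.IntSub47 Fermat.Agent.Jac Fermat.Agent.Jac.JGroup85Pic
open Fermat.Agent.T1.RedIface75 Fermat.Agent.T1.Red11
open Fermat.Agent.T1.Dict59 Fermat.Agent.T1.Dict67
open Fermat.Agent.T1B.Local66.LocalBase Fermat.Agent.T1B.Local66.Union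
open Fermat.Agent.T1B.Bridge54.IpInst Fermat.Agent.T1B.Bridge54.IpRes
open Fermat.Agent.T1B.Bridge54.IpUnion
open Fermat.Agent.T1B.Bridge39
open Fermat.Agent.T1B.GalInput65
open Fermat.Agent.T1B.AD69.Concrete (algKE)
open Fermat.Agent.T1B.Hol31.DictExt
open Fermat.Agent.MAZ.JAll39
open Fermat.Agent.Jac.BaseChange75
open scoped Fermat.Agent.Jac.BaseChange75

noncomputable section

namespace Fermat.Agent.S33P.CmpAll38

variable {p : ℕ} [Fact p.Prime] {K : IntermediateField ℚ Qbar} {N : ℕ} [NeZero N]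
  {B0 B1 B01 : Type} [CommRing B0] [CommRing B1] [CommRing B01]
  [Algebra (Wb p K) B0] [Algebra (Wb p K) B1] [Algebra (Wb p K) B01] [Algebra B0 B01]
  [Algebra B1 B01] [IsScalarTower (Wb p K) B0 B01] [IsScalarTower (Wb p K) B1 B01]
  {c0 : TwoChart (Wb p K) B0 B1 B01}

attribute [local instance] algWKbar

/-- `bcE ∘ toEh = bcL` (as in `Local66/Bridge`). -/
theorem bcE_toEh (E : NLevel p K) (z : Fermat.Agent.T1B.ADPe93.Inst.PicL c0 E) :
    bcE c0 E (Fermat.Agent.T1B.ADPe93.Inst.toEh c0 E z) = bcL c0 E.leL z := by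
  letI := algAKL (padicPlace p) E.leL
  letI := algWE E.lev
  letI := algKE E.levL
  letI := algWKbar p K
  letI := algEKbar E.E
  letI := algLKbar p E.L
  haveI := Fermat.Agent.T1B.ADPe93.Inst.tower_W_L_Eh E
  haveI := tower_W_E_Kbar E.lev
  haveI := tower_W_L_Kbar (p := p) E.leL
  haveI : IsScalarTower ↥E.L ↥E.E (Kbar p) := IsScalarTower.of_algebraMap_eq fun _ => rfl
  exact PicX.map_comp c0 ↥E.L ↥E.E (Kbar p) z

variable (Fam : ChartIsoFamilyN (padicPlace p) N K c0)

/-- **JSpec-F for the classes `dDiv L D`** (part (A), helper39's `hJ_dDiv`), as a statement. -/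
def JSpecDiv : Prop :=
  ∀ (L : IntermediateField ℚ Qbar) [FiniteDimensional ℚ L] [Normal ℚ L] (hle : K ≤ L)
    (X : Divisor.degZero (K := Qbar) (F := Fbar N))
    (_ : ∀ w, (X : Divisor Qbar (Fbar N)) w ≠ 0 → IsRatPlace L w),
    letI := algAKL (padicPlace p) hle
    ∀ (ML : QC2 ↥L (↥L ⊗[Wb p K] B0) (↥L ⊗[Wb p K] B1) (↥L ⊗[Wb p K] B01)) (hML : ML.IsLine)
      (φ : Framing (Fam.E L hle) ML),
      Fam.dDiv L hle (X : Divisor Qbar (Fbar N)) = LinePic.mk (c0.baseChange ↥L) ML hML →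
        LinePair.deg (framePair (Fam.E L hle) hML φ) = 0 ∧
          LinePair.cls (framePair (Fam.E L hle) hML φ) = Pic0.mk X

/-- The hypothesis `hxy` of `Cmp67.Final.cmp_of_dict` / `Cmp15.cmp_of_dict_model` at the level `E`
(the conclusion of `Cmp76.hxy_of_bcO_eq`). -/
def Hxy (E : NLevel p K) (y : PicO c0 E) (xL : Fermat.Agent.T1B.ADPe93.Inst.PicL c0 E) : Prop :=
  letI := algWO E.lev
  letI := algWE E.lev
  letI := algOE E.E
  haveI := tower_W_O_E E.lev
  letI := algAKL (padicPlace p) E.leL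
  letI := algKE E.levL
  haveI := Fermat.Agent.T1B.ADPe93.Inst.tower_W_L_Eh E
  PicX.map c0 ↥(intSubring p E.E) ↥E.E y = PicX.map c0 ↥E.L ↥E.E xL

/-- The hypothesis `hJ` of `Cmp67.Final.cmp_of_dict` / `Cmp15.cmp_of_dict_model` at the level `E`, for
`EL := Fam.E E.L E.leL` and `Good P := deg P = 0 ∧ cls P = x`. -/
def HJ (E : NLevel p K) (xL : Fermat.Agent.T1B.ADPe93.Inst.PicL c0 E) (x : JZero N) : Prop :=
  letI := algAKL (padicPlace p) E.leL
  ∀ (ML : QC2 ↥E.L (↥E.L ⊗[Wb p K] B0) (↥E.L ⊗[Wb p K] B1) (↥E.L ⊗[Wb p K] B01))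
    (hML : ML.IsLine) (φ : Framing (Fam.E E.L E.leL) ML),
    xL = LinePic.mk (c0.baseChange ↥E.L) ML hML →
      LinePair.deg (framePair (Fam.E E.L E.leL) hML φ) = 0 ∧
        LinePair.cls (framePair (Fam.E E.L E.leL) hML φ) = x

variable [FiniteDimensional ℚ K]

/-- **The data of CMP at one level**, for a point `x` of `J₀(N)(ℚ̄)` whose image `jAll x` lies in the
union `J̃¹ = ⋃_E (P E ⊓ J̃¹(O_E))`: a level `E`, the class `y ∈ P E ⊓ J̃¹(O_E)` with image `jAll x`, and
the class `xL = [O(D)] ∈ Pic X_{E.L}` of a divisor `D` of class `x`, with `hxy` and `hJ`. -/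
theorem exists_level_data [Nonempty (NLevel p K)]
    {P : ∀ E : NLevel p K, Subgroup (PicO c0 E)}
    {hP1 : Compatible c0 (fun E => P E ⊓ J1Fam c0 E)}
    (hinjE : ∀ E : NLevel p K, Function.Injective (bcE c0 E))
    (hJdiv : JSpecDiv Fam) (x : JZero N)
    (hxJ : jAll Fam x ∈ unionSub c0 (fun E => P E ⊓ J1Fam c0 E) hP1) :
    ∃ (E : NLevel p K) (y : PicO c0 E) (xL : Fermat.Agent.T1B.ADPe93.Inst.PicL c0 E),
      y ∈ P E ∧ y ∈ J1Fam c0 E ∧ Additive.ofMul (bcO c0 E y) = jAll Fam x ∧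
        Hxy E y xL ∧ HJ Fam E xL x := by
  -- a representative of `x`
  set R := rep K x with hR
  -- a level above the field of the representative
  obtain ⟨E₁⟩ := (inferInstance : Nonempty (NLevel p K))
  obtain ⟨E₀, -, hRE₀⟩ := E₁.exists_ge_field R.L
  -- the class over `O_E`, the level being enlarged
  obtain ⟨E, hE₀E, a, ha, hae⟩ := exists_ge_of_mem_unionSub c0 hxJ E₀
  have hRE : R.L ≤ E.L := hRE₀.trans (NLevel.le_def.1 hE₀E)
  have hrat : ∀ w, (R.D : Divisor Qbar (Fbar N)) w ≠ 0 → IsRatPlace E.L w := fun w hw =>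
    Fermat.Agent.T1.Dict22.TorsSection.isRatPlace_mono hRE (R.rat w hw)
  -- `jAll x` through the level `E.L`
  have hj : jAll Fam x = jDiv Fam E.L E.leL (R.D : Divisor Qbar (Fbar N)) := by
    have h := jAll_mk Fam E.L E.leL R.D hrat
    rwa [R.mk_D] at h
  refine ⟨E, a, Fam.dDiv E.L E.leL (R.D : Divisor Qbar (Fbar N)), (Subgroup.mem_inf.1 ha).1,
    (Subgroup.mem_inf.1 ha).2, hae, ?_, ?_⟩
  · have hx' : Additive.ofMul (bcE c0 E (Fermat.Agent.T1B.ADPe93.Inst.toEh c0 E
        (Fam.dDiv E.L E.leL (R.D : Divisor Qbar (Fbar N))))) = jAll Fam x := by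
      rw [bcE_toEh]
      exact hj.symm
    exact Fermat.Agent.T1B.Cmp76.hxy_of_bcO_eq c0 (hinjE E) hae hx'
  · intro ML hML φ hxL
    have h := hJdiv E.L E.leL R.D hrat ML hML φ hxL
    rwa [R.mk_D] at h

/-- **N2-cmpall, EXISTENTIAL form**: the hypothesis `hcmp` of `S33P/Toric84/PowFields.toric_inf_field`
(and of `S33P/Toric65`) for the bridge `j := jAll Fam` on all of `J₀(N)(ℚ̄)`, from
* `hinjE` (`Cmp76.injective_bcE`),
* `hJdiv` (part (A), `S33P/CmpAll39/JSpecDiv.hJ_dDiv`),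
* `hlevel`: the level-wise CMP in dictionary form (`Cmp15.cmp_of_dict_model` with
  `Good P := deg P = 0 ∧ cls P = x`, `EL := Fam.E E.L E.leL`): `hxy → hJ → Ker E y`. -/
theorem cmpall [Nonempty (NLevel p K)]
    {P : ∀ E : NLevel p K, Subgroup (PicO c0 E)}
    {hP1 : Compatible c0 (fun E => P E ⊓ J1Fam c0 E)}
    (ker : JZero N → Prop)
    (Ker : ∀ E : NLevel p K, J1 c0 ((levelFamilyN p K).O E) → Prop)
    (hinjE : ∀ E : NLevel p K, Function.Injective (bcE c0 E))
    (hJdiv : JSpecDiv Fam)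
    (hlevel : ∀ (E : NLevel p K) (x : JZero N), ker x →
      ∀ (y : J1 c0 ((levelFamilyN p K).O E)) (xL : Fermat.Agent.T1B.ADPe93.Inst.PicL c0 E),
        Hxy E (y : PicX c0 ((levelFamilyN p K).O E)) xL → HJ Fam E xL x → Ker E y) :
    ∀ x : JZero N, ker x → jAll Fam x ∈ unionSub c0 (fun E => P E ⊓ J1Fam c0 E) hP1 →
      ∃ (E : NLevel p K) (y : J1 c0 ((levelFamilyN p K).O E)),
        Additive.ofMul (bcO c0 E (y : PicX c0 ((levelFamilyN p K).O E))) = jAll Fam x ∧
          Ker E y := by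
  intro x hx hxJ
  obtain ⟨E, a, xL, -, ha1, hae, hxy, hJ⟩ := exists_level_data Fam hinjE hJdiv x hxJ
  let y : J1 c0 ((levelFamilyN p K).O E) := ⟨a, ha1⟩
  exact ⟨E, y, hae, hlevel E x hx y xL hxy hJ⟩

/-! ### Part (A) plugged in (helper39's `S33P/CmpAll39/JSpecDiv.hJ_dDiv`) -/

/-- **JSpec-F for the classes `dDiv L D`** (helper39). -/
theorem jspecDiv : JSpecDiv Fam := fun L _ _ hle X hX =>
  Fermat.Agent.S33P.CmpAll39.hJ_dDiv Fam L hle X hX

/-- `exists_level_data` without the hypothesis `hJdiv`. -/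
theorem exists_level_data' [Nonempty (NLevel p K)]
    {P : ∀ E : NLevel p K, Subgroup (PicO c0 E)}
    {hP1 : Compatible c0 (fun E => P E ⊓ J1Fam c0 E)}
    (hinjE : ∀ E : NLevel p K, Function.Injective (bcE c0 E)) (x : JZero N)
    (hxJ : jAll Fam x ∈ unionSub c0 (fun E => P E ⊓ J1Fam c0 E) hP1) :
    ∃ (E : NLevel p K) (y : PicO c0 E) (xL : Fermat.Agent.T1B.ADPe93.Inst.PicL c0 E),
      y ∈ P E ∧ y ∈ J1Fam c0 E ∧ Additive.ofMul (bcO c0 E y) = jAll Fam x ∧
        Hxy E y xL ∧ HJ Fam E xL x :=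
  exists_level_data Fam hinjE (jspecDiv Fam) x hxJ

/-- **N2-cmpall, EXISTENTIAL form, with part (A) plugged in**: the hypothesis `hcmp` of
`S33P/Toric84/PowFields.toric_inf_field` and `S33P/Toric65/PlugEx` for `j := jAll Fam`, from `hinjE`
and the level-wise CMP `hlevel` only. -/
theorem cmpall' [Nonempty (NLevel p K)]
    {P : ∀ E : NLevel p K, Subgroup (PicO c0 E)}
    {hP1 : Compatible c0 (fun E => P E ⊓ J1Fam c0 E)}
    (ker : JZero N → Prop)
    (Ker : ∀ E : NLevel p K, J1 c0 ((levelFamilyN p K).O E) → Prop)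
    (hinjE : ∀ E : NLevel p K, Function.Injective (bcE c0 E))
    (hlevel : ∀ (E : NLevel p K) (x : JZero N), ker x →
      ∀ (y : J1 c0 ((levelFamilyN p K).O E)) (xL : Fermat.Agent.T1B.ADPe93.Inst.PicL c0 E),
        Hxy E (y : PicX c0 ((levelFamilyN p K).O E)) xL → HJ Fam E xL x → Ker E y) :
    ∀ x : JZero N, ker x → jAll Fam x ∈ unionSub c0 (fun E => P E ⊓ J1Fam c0 E) hP1 →
      ∃ (E : NLevel p K) (y : J1 c0 ((levelFamilyN p K).O E)),
        Additive.ofMul (bcO c0 E (y : PicX c0 ((levelFamilyN p K).O E))) = jAll Fam x ∧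
          Ker E y :=
  cmpall Fam ker Ker hinjE (jspecDiv Fam) hlevel

end Fermat.Agent.S33P.CmpAll38
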